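import Fermat.Agent.MordellTetrahedron.Moments

/-!
# The layers of the box

The integral part `q` of `x / a + y / b + z / c` on the box is `0`, `1` or `2`; from the sums of `q`
and `q ^ 2` follow the sizes of the three layers.
-/

set_option autoImplicit false

noncomputable section

open Finset FA.DedekindSums

namespace FA.MordellTetrahedron

/-- The points of the box with a given integral part. -/
def layer (a b c q : ℕ) : ℕ :=
  ((box a b c).filter fun v => weight a b c v / (a * b * c) = q).card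

/-- The three Dedekind sums. -/
def sumS (a b c : ℕ) : ℚ :=
  dedekindSum ((b * c : ℕ) : ℤ) a + dedekindSum ((c * a : ℕ) : ℤ) b +
    dedekindSum ((a * b : ℕ) : ℤ) c

variable {a b c : ℕ}

theorem weight_lt {v : ℕ × ℕ × ℕ} (hv : v ∈ box a b c) :
    weight a b c v < 3 * (a * b * c) := by
  obtain ⟨hx, hy, hz⟩ := mem_box.1 hv
  simp only [weight]
  have hb : 0 < b := lt_of_le_of_lt (Nat.zero_le _) hy
  have hc : 0 < c := lt_of_le_of_lt (Nat.zero_le _) hz
  have h1 : b * c * v.1 < b * c * a := Nat.mul_lt_mul_of_pos_left hx (by positivity)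
  have h2 : a * c * v.2.1 ≤ a * c * b := Nat.mul_le_mul_left _ hy.le
  have h3 : a * b * v.2.2 ≤ a * b * c := Nat.mul_le_mul_left _ hz.le
  linarith

theorem sum_quotient_comp (F : ℕ → ℚ) :
    ∑ v ∈ box a b c, F (weight a b c v / (a * b * c)) =
      ∑ q ∈ range 3, (layer a b c q : ℚ) * F q := by
  rw [← sum_fiberwise_of_maps_to (t := range 3) (g := fun v => weight a b c v / (a * b * c))
    fun v hv => Finset.mem_range.2 (Nat.div_lt_of_lt_mul (by linarith [weight_lt hv]))]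
  refine Finset.sum_congr rfl fun q _ => ?_
  rw [Finset.sum_congr rfl fun v hv => by rw [(Finset.mem_filter.1 hv).2], sum_const, nsmul_eq_mul]
  rfl

theorem layer_sum :
    (layer a b c 0 : ℚ) + layer a b c 1 + layer a b c 2 = (a : ℚ) * b * c := by
  have h := sum_quotient_comp (a := a) (b := b) (c := c) fun _ => 1
  simp [Finset.sum_range_succ, card_box] at h
  linarith

theorem sum_box_fst (F : ℕ → ℚ) :
    ∑ v ∈ box a b c, F v.1 = (b : ℚ) * c * ∑ x ∈ range a, F x := by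
  simp [box, sum_product, mul_sum, mul_assoc]

theorem sum_box_snd (F : ℕ → ℚ) :
    ∑ v ∈ box a b c, F v.2.1 = (a : ℚ) * c * ∑ y ∈ range b, F y := by
  simp [box, sum_product, mul_sum, mul_assoc]

theorem sum_box_thd (F : ℕ → ℚ) :
    ∑ v ∈ box a b c, F v.2.2 = (a : ℚ) * b * ∑ z ∈ range c, F z := by
  simp [box, sum_product, mul_assoc]

theorem sum_box_mul (F G H : ℕ → ℚ) :
    ∑ v ∈ box a b c, F v.1 * (G v.2.1 * H v.2.2) =
      (∑ x ∈ range a, F x) * ((∑ y ∈ range b, G y) * ∑ z ∈ range c, H z) := by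
  simp only [box, sum_product, sum_mul_sum, ← mul_sum]

theorem sum_box_fst_snd :
    ∑ v ∈ box a b c, (v.1 : ℚ) * v.2.1 =
      c * ((∑ x ∈ range a, (x : ℚ)) * ∑ y ∈ range b, (y : ℚ)) := by
  have h := sum_box_mul (a := a) (b := b) (c := c) (fun x => (x : ℚ)) (fun x => (x : ℚ)) fun _ => 1
  simp only [mul_one, sum_const, card_range, nsmul_eq_mul] at h
  rw [h]
  ring

theorem sum_box_fst_thd :
    ∑ v ∈ box a b c, (v.1 : ℚ) * v.2.2 =
      b * ((∑ x ∈ range a, (x : ℚ)) * ∑ z ∈ range c, (z : ℚ)) := by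
  have h := sum_box_mul (a := a) (b := b) (c := c) (fun x => (x : ℚ)) (fun _ => 1) fun x => (x : ℚ)
  simp only [one_mul, mul_one, sum_const, card_range, nsmul_eq_mul] at h
  rw [h]
  ring

theorem sum_box_snd_thd :
    ∑ v ∈ box a b c, (v.2.1 : ℚ) * v.2.2 =
      a * ((∑ y ∈ range b, (y : ℚ)) * ∑ z ∈ range c, (z : ℚ)) := by
  have h := sum_box_mul (a := a) (b := b) (c := c) (fun _ => 1) (fun x => (x : ℚ)) fun x => (x : ℚ)
  simp only [one_mul, mul_one, sum_const, card_range, nsmul_eq_mul] at h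
  exact h

theorem sum_snd_residue (hab : a.Coprime b) (hac : a.Coprime c) (hbc : b.Coprime c) (ha : 0 < a)
    (hb : 0 < b) (hc : 0 < c) :
    ∑ v ∈ box a b c, (v.2.1 : ℚ) * ((weight a b c v % (a * b * c) : ℕ) : ℚ) =
      ((a : ℚ) * c) * (b : ℚ) ^ 2 * (dedekindSum ((c * a : ℕ) : ℤ) b + ((b : ℚ) - 1) / 4) +
        (b : ℚ) * ((a : ℚ) * c * ((a : ℚ) * c - 1) / 2) * ((b : ℚ) * (b - 1) / 2) := by
  rw [mul_comm c a, ← sum_fst_residue hab.symm hbc hac hb ha hc]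
  refine Finset.sum_nbij' (fun v => (v.2.1, v.1, v.2.2)) (fun v => (v.2.1, v.1, v.2.2))
    (fun v hv => ?_) (fun v hv => ?_) (fun v _ => rfl) (fun v _ => rfl) fun v _ => ?_
  · rw [mem_box] at hv ⊢
    exact ⟨hv.2.1, hv.1, hv.2.2⟩
  · rw [mem_box] at hv ⊢
    exact ⟨hv.2.1, hv.1, hv.2.2⟩
  · rw [show weight b a c (v.2.1, v.1, v.2.2) = weight a b c v by simp only [weight]; ring,
      show b * a * c = a * b * c by ring]

theorem sum_thd_residue (hab : a.Coprime b) (hac : a.Coprime c) (hbc : b.Coprime c) (ha : 0 < a)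
    (hb : 0 < b) (hc : 0 < c) :
    ∑ v ∈ box a b c, (v.2.2 : ℚ) * ((weight a b c v % (a * b * c) : ℕ) : ℚ) =
      ((a : ℚ) * b) * (c : ℚ) ^ 2 * (dedekindSum ((a * b : ℕ) : ℤ) c + ((c : ℚ) - 1) / 4) +
        (c : ℚ) * ((a : ℚ) * b * ((a : ℚ) * b - 1) / 2) * ((c : ℚ) * (c - 1) / 2) := by
  rw [← sum_fst_residue hac.symm hbc.symm hab hc ha hb]
  refine Finset.sum_nbij' (fun v => (v.2.2, v.1, v.2.1)) (fun v => (v.2.1, v.2.2, v.1))
    (fun v hv => ?_) (fun v hv => ?_) (fun v _ => rfl) (fun v _ => rfl) fun v _ => ?_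
  · rw [mem_box] at hv ⊢
    exact ⟨hv.2.2, hv.1, hv.2.1⟩
  · rw [mem_box] at hv ⊢
    exact ⟨hv.2.1, hv.2.2, hv.1⟩
  · rw [show weight c a b (v.2.2, v.1, v.2.1) = weight a b c v by simp only [weight]; ring,
      show c * a * b = a * b * c by ring]

/-- **The moments of the integral part.** -/
theorem layer_moments (hab : a.Coprime b) (hac : a.Coprime c) (hbc : b.Coprime c) (ha : 0 < a)
    (hb : 0 < b) (hc : 0 < c) :
    (layer a b c 1 : ℚ) + 2 * layer a b c 2 =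
        (a : ℚ) * b * c - ((a : ℚ) * b + b * c + a * c) / 2 + 1 / 2 ∧
      2 * (layer a b c 0 : ℚ) = (a : ℚ) * b * c / 3 +
        ((a : ℚ) * b + b * c + a * c + a + b + c) / 2 +
        ((a : ℚ) * b / c + (b : ℚ) * c / a + (a : ℚ) * c / b + 1 / ((a : ℚ) * b * c)) / 6 -
        2 * sumS a b c - 2 := by
  obtain ⟨M, hM⟩ : ∃ M : ℚ, M = (a : ℚ) * b * c := ⟨_, rfl⟩
  have hM0 : M ≠ 0 := by rw [hM]; positivity
  obtain ⟨S, hS⟩ : ∃ S : ℕ × ℕ × ℕ → ℚ, S = fun v =>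
      (b : ℚ) * c * v.1 + (a : ℚ) * c * v.2.1 + (a : ℚ) * b * v.2.2 := ⟨_, rfl⟩
  obtain ⟨r, hr⟩ : ∃ r : ℕ × ℕ × ℕ → ℚ,
      r = fun v => ((weight a b c v % (a * b * c) : ℕ) : ℚ) := ⟨_, rfl⟩
  have hq : ∀ v, ((weight a b c v / (a * b * c) : ℕ) : ℚ) = (S v - r v) / M := fun v => by
    rw [eq_div_iff hM0, eq_sub_iff_add_eq, hS, hr, hM]
    have := congrArg (fun n : ℕ => (n : ℚ)) (Nat.div_add_mod (weight a b c v) (a * b * c))
    simp only [weight] at this ⊢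
    push_cast at this ⊢
    linarith
  have hr1 : ∑ v ∈ box a b c, r v = M * (M - 1) / 2 := by
    rw [hr, sum_residue_comp hab hac hbc ha hb hc fun n => (n : ℚ), sum_range_cast, hM]
    push_cast
    ring
  have hr2 : ∑ v ∈ box a b c, r v ^ 2 = M * (M - 1) * (2 * M - 1) / 6 := by
    rw [hr, sum_residue_comp hab hac hbc ha hb hc fun n => (n : ℚ) ^ 2, sum_range_sq, hM]
    push_cast
    ring
  have hS1 : ∑ v ∈ box a b c, S v = (b : ℚ) * c * (b * c * (a * (a - 1) / 2)) +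
      (a : ℚ) * c * (a * c * (b * (b - 1) / 2)) + (a : ℚ) * b * (a * b * (c * (c - 1) / 2)) := by
    simp only [hS, sum_add_distrib, ← mul_sum]
    rw [sum_box_fst fun x => (x : ℚ), sum_box_snd fun x => (x : ℚ),
      sum_box_thd fun x => (x : ℚ)]
    simp only [sum_range_cast]
  have hS2 : ∑ v ∈ box a b c, S v ^ 2 =
      ((b : ℚ) * c) ^ 2 * (b * c * (a * (a - 1) * (2 * a - 1) / 6)) +
      ((a : ℚ) * c) ^ 2 * (a * c * (b * (b - 1) * (2 * b - 1) / 6)) +
      ((a : ℚ) * b) ^ 2 * (a * b * (c * (c - 1) * (2 * c - 1) / 6)) +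
      2 * ((b : ℚ) * c) * (a * c) * (c * (a * (a - 1) / 2 * (b * (b - 1) / 2))) +
      2 * ((b : ℚ) * c) * (a * b) * (b * (a * (a - 1) / 2 * (c * (c - 1) / 2))) +
      2 * ((a : ℚ) * c) * (a * b) * (a * (b * (b - 1) / 2 * (c * (c - 1) / 2))) := by
    have e : ∀ v, S v ^ 2 = ((b : ℚ) * c) ^ 2 * (v.1 : ℚ) ^ 2 +
        ((a : ℚ) * c) ^ 2 * (v.2.1 : ℚ) ^ 2 + ((a : ℚ) * b) ^ 2 * (v.2.2 : ℚ) ^ 2 +
        2 * ((b : ℚ) * c) * (a * c) * ((v.1 : ℚ) * v.2.1) +
        2 * ((b : ℚ) * c) * (a * b) * ((v.1 : ℚ) * v.2.2) +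
        2 * ((a : ℚ) * c) * (a * b) * ((v.2.1 : ℚ) * v.2.2) := fun v => by rw [hS]; ring
    simp only [e, sum_add_distrib, ← mul_sum]
    rw [sum_box_fst fun x => (x : ℚ) ^ 2, sum_box_snd fun x => (x : ℚ) ^ 2,
      sum_box_thd fun x => (x : ℚ) ^ 2, sum_box_fst_snd, sum_box_fst_thd, sum_box_snd_thd]
    simp only [sum_range_cast, sum_range_sq]
  have hSr : ∑ v ∈ box a b c, S v * r v =
      (b : ℚ) * c * ∑ v ∈ box a b c, (v.1 : ℚ) * r v +
      (a : ℚ) * c * ∑ v ∈ box a b c, (v.2.1 : ℚ) * r v +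
      (a : ℚ) * b * ∑ v ∈ box a b c, (v.2.2 : ℚ) * r v := by
    simp only [hS, add_mul, sum_add_distrib, mul_sum, mul_assoc]
  have h1 := sum_quotient_comp (a := a) (b := b) (c := c) fun n => (n : ℚ)
  have h2 := sum_quotient_comp (a := a) (b := b) (c := c) fun n => (n : ℚ) ^ 2
  simp only [hq, ← sum_div, sum_sub_distrib, hr1, hS1] at h1
  have e2 : ∀ v, ((S v - r v) / M) ^ 2 = (S v ^ 2 - 2 * (S v * r v) + r v ^ 2) / M ^ 2 :=
    fun v => by ring
  simp only [hq, e2, ← sum_div, sum_add_distrib, sum_sub_distrib, ← mul_sum, hr2, hS2, hSr] at h2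
  rw [hr] at h2
  simp only [sum_fst_residue hab hac hbc ha hb hc, sum_snd_residue hab hac hbc ha hb hc,
    sum_thd_residue hab hac hbc ha hb hc] at h2
  simp only [sum_range_succ, sum_range_zero, zero_add, Nat.cast_zero, Nat.cast_one,
    Nat.cast_ofNat] at h1 h2
  have h0 := layer_sum (a := a) (b := b) (c := c)
  have ha' : (a : ℚ) ≠ 0 := Nat.cast_ne_zero.2 ha.ne'
  have hb' : (b : ℚ) ≠ 0 := Nat.cast_ne_zero.2 hb.ne'
  have hc' : (c : ℚ) ≠ 0 := Nat.cast_ne_zero.2 hc.ne'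
  rw [hM] at h1 h2
  constructor
  · rw [show (layer a b c 1 : ℚ) + 2 * layer a b c 2 =
      (layer a b c 0 : ℚ) * 0 + layer a b c 1 * 1 + layer a b c 2 * 2 by ring, ← h1]
    field_simp
    ring
  · rw [show 2 * (layer a b c 0 : ℚ) = 2 * ((layer a b c 0 : ℚ) + layer a b c 1 + layer a b c 2)
        - 3 * ((layer a b c 0 : ℚ) * 0 + layer a b c 1 * 1 + layer a b c 2 * 2)
        + ((layer a b c 0 : ℚ) * 0 ^ 2 + layer a b c 1 * 1 ^ 2 + layer a b c 2 * 2 ^ 2) by ring,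
      h0, ← h1, ← h2, sumS]
    field_simp
    ring

end FA.MordellTetrahedron

end
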