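import Fermat.Agent.DedekindSums.Basic
import Mathlib.Data.Nat.GCD.BigOperators

/-!
# Moments of the residues over a box

For pairwise coprime `a, b, c` the residues of `b c x + a c y + a b z` modulo `a b c` over the box
`x < a, y < b, z < c` take every value once; their product sum with `x` gives a Dedekind sum.
-/

set_option autoImplicit false

noncomputable section

open Finset FA.DedekindSums

namespace FA.MordellTetrahedron

/-- The weight of a point: `a b c (x / a + y / b + z / c)`. -/
def weight (a b c : ℕ) (v : ℕ × ℕ × ℕ) : ℕ := b * c * v.1 + a * c * v.2.1 + a * b * v.2.2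

/-- The box. -/
def box (a b c : ℕ) : Finset (ℕ × ℕ × ℕ) := range a ×ˢ range b ×ˢ range c

variable {a b c : ℕ}

theorem mem_box {v : ℕ × ℕ × ℕ} : v ∈ box a b c ↔ v.1 < a ∧ v.2.1 < b ∧ v.2.2 < c := by
  simp [box]

theorem card_box : (box a b c).card = a * b * c := by simp [box, mul_assoc]

theorem sum_range_cast (k : ℕ) : ∑ i ∈ range k, (i : ℚ) = (k : ℚ) * (k - 1) / 2 := by
  induction k with
  | zero => simp
  | succ k ih => rw [sum_range_succ, ih]; push_cast; ring

theorem sum_range_sq (k : ℕ) :
    ∑ i ∈ range k, (i : ℚ) ^ 2 = (k : ℚ) * (k - 1) * (2 * k - 1) / 6 := by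
  induction k with
  | zero => simp
  | succ k ih => rw [sum_range_succ, ih]; push_cast; ring

theorem eq_of_modEq (hab : a.Coprime b) (hac : a.Coprime c) {x x' y y' z z' : ℕ} (hx : x < a)
    (hx' : x' < a) (h : weight a b c (x, y, z) ≡ weight a b c (x', y', z') [MOD a * b * c]) :
    x = x' := by
  have h1 : b * c * x ≡ b * c * x' [MOD a] := by
    have h2 := h.of_dvd (show a ∣ a * b * c from ⟨b * c, mul_assoc a b c⟩)
    have e : ∀ x y z, weight a b c (x, y, z) ≡ b * c * x [MOD a] := fun x y z => by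
      simp only [weight]
      rw [show b * c * x + a * c * y + a * b * z = b * c * x + a * (c * y + b * z) by ring]
      exact (Nat.modEq_zero_iff_dvd.2 (dvd_mul_right a _)).add_left _ |>.trans (by simp; rfl)
    exact ((e x y z).symm.trans h2).trans (e x' y' z')
  exact (h1.cancel_left_of_coprime (Nat.Coprime.mul_right hab hac)).eq_of_lt_of_lt hx hx'

theorem injOn_residue (hab : a.Coprime b) (hac : a.Coprime c) (hbc : b.Coprime c) :
    Set.InjOn (fun v => weight a b c v % (a * b * c)) (box a b c) := by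
  rintro ⟨x, y, z⟩ hv ⟨x', y', z'⟩ hv' h
  simp only [Finset.mem_coe, mem_box] at hv hv'
  have hm : weight a b c (x, y, z) ≡ weight a b c (x', y', z') [MOD a * b * c] := h
  obtain rfl := eq_of_modEq hab hac hv.1 hv'.1 hm
  obtain rfl : y = y' := eq_of_modEq (a := b) (b := a) (c := c) (y := x) (y' := x) (z := z)
    (z' := z') hab.symm hbc hv.2.1 hv'.2.1 (by
      rw [show b * a * c = a * b * c by ring,
        show weight b a c (y, x, z) = weight a b c (x, y, z) by simp only [weight]; ring,
        show weight b a c (y', x, z') = weight a b c (x, y', z') by simp only [weight]; ring]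
      exact hm)
  obtain rfl : z = z' := eq_of_modEq (a := c) (b := a) (c := b) (y := x) (y' := x) (z := y)
    (z' := y) hac.symm hbc.symm hv.2.2 hv'.2.2 (by
      rw [show c * a * b = a * b * c by ring,
        show weight c a b (z, x, y) = weight a b c (x, y, z) by simp only [weight]; ring,
        show weight c a b (z', x, y) = weight a b c (x, y, z') by simp only [weight]; ring]
      exact hm)
  rfl

theorem sum_residue_comp {M : Type*} [AddCommMonoid M] (hab : a.Coprime b) (hac : a.Coprime c)
    (hbc : b.Coprime c) (ha : 0 < a) (hb : 0 < b) (hc : 0 < c) (F : ℕ → M) :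
    ∑ v ∈ box a b c, F (weight a b c v % (a * b * c)) = ∑ r ∈ range (a * b * c), F r := by
  have himg : (box a b c).image (fun v => weight a b c v % (a * b * c)) = range (a * b * c) := by
    refine eq_of_subset_of_card_le (fun r hr => ?_) ?_
    · obtain ⟨v, -, rfl⟩ := Finset.mem_image.1 hr
      exact Finset.mem_range.2 (Nat.mod_lt _ (by positivity))
    · rw [card_image_of_injOn (injOn_residue hab hac hbc), card_box, card_range]
  rw [← himg, sum_image (injOn_residue hab hac hbc)]

/-- The residue sum on a slice. -/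
theorem slice_sum (hab : a.Coprime b) (hac : a.Coprime c) (hbc : b.Coprime c) (ha : 0 < a)
    (hb : 0 < b) (hc : 0 < c) {x : ℕ} (hx : x < a) :
    ∑ w ∈ range b ×ˢ range c, ((weight a b c (x, w) % (a * b * c) : ℕ) : ℚ) =
      ((b : ℚ) * c) * ((b * c * x % a : ℕ) : ℚ) +
        (a : ℚ) * ((b : ℚ) * c * ((b : ℚ) * c - 1) / 2) := by
  obtain ⟨ρ, hρ⟩ : ∃ ρ, ρ = b * c * x % a := ⟨_, rfl⟩
  have hmod : ∀ w, weight a b c (x, w) % (a * b * c) % a = ρ := fun w => by
    rw [Nat.mod_mod_of_dvd _ ⟨b * c, mul_assoc a b c⟩, hρ]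
    simp only [weight]
    rw [show b * c * x + a * c * w.1 + a * b * w.2 = b * c * x + a * (c * w.1 + b * w.2) by ring,
      Nat.add_mul_mod_self_left]
  have hinj : Set.InjOn (fun w => weight a b c (x, w) % (a * b * c) / a)
      (range b ×ˢ range c : Finset (ℕ × ℕ)) := fun w hw w' hw' h => by
    have h1 : weight a b c (x, w) % (a * b * c) = weight a b c (x, w') % (a * b * c) := by
      rw [← Nat.div_add_mod (weight a b c (x, w) % (a * b * c)) a,
        ← Nat.div_add_mod (weight a b c (x, w') % (a * b * c)) a, hmod, hmod]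
      exact congrArg (fun n => a * n + ρ) h
    have hw2 : (x, w) ∈ box a b c := by
      simp only [box, Finset.mem_product, Finset.mem_range, Finset.mem_coe] at hw ⊢
      exact ⟨hx, hw⟩
    have hw2' : (x, w') ∈ box a b c := by
      simp only [box, Finset.mem_product, Finset.mem_range, Finset.mem_coe] at hw' ⊢
      exact ⟨hx, hw'⟩
    exact (Prod.ext_iff.1 (injOn_residue hab hac hbc hw2 hw2' h1)).2
  have himg : (range b ×ˢ range c).image (fun w => weight a b c (x, w) % (a * b * c) / a) =
      range (b * c) := by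
    refine eq_of_subset_of_card_le (fun r hr => ?_) ?_
    · obtain ⟨w, -, rfl⟩ := Finset.mem_image.1 hr
      rw [Finset.mem_range, Nat.div_lt_iff_lt_mul ha]
      refine (Nat.mod_lt _ (by positivity)).trans_eq ?_
      ring
    · rw [card_image_of_injOn hinj, card_product, card_range, card_range, card_range]
  have hterm : ∀ w, ((weight a b c (x, w) % (a * b * c) : ℕ) : ℚ) =
      (a : ℚ) * ((weight a b c (x, w) % (a * b * c) / a : ℕ) : ℚ) + (ρ : ℚ) := fun w => by
    have := Nat.div_add_mod (weight a b c (x, w) % (a * b * c)) a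
    rw [hmod] at this
    exact_mod_cast this.symm
  rw [Finset.sum_congr rfl fun w _ => hterm w, sum_add_distrib, ← mul_sum,
    ← sum_image (f := fun j : ℕ => (j : ℚ)) hinj, himg, sum_range_cast, sum_const, card_product,
    card_range, card_range, ← hρ, nsmul_eq_mul]
  push_cast
  ring

theorem sum_fst_residue (hab : a.Coprime b) (hac : a.Coprime c) (hbc : b.Coprime c) (ha : 0 < a)
    (hb : 0 < b) (hc : 0 < c) :
    ∑ v ∈ box a b c, (v.1 : ℚ) * ((weight a b c v % (a * b * c) : ℕ) : ℚ) =
      ((b : ℚ) * c) * (a : ℚ) ^ 2 * (dedekindSum ((b * c : ℕ) : ℤ) a + ((a : ℚ) - 1) / 4) +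
        (a : ℚ) * ((b : ℚ) * c * ((b : ℚ) * c - 1) / 2) * ((a : ℚ) * (a - 1) / 2) := by
  have : NeZero a := ⟨ha.ne'⟩
  have hu : IsUnit (((b * c : ℕ) : ℤ) : ZMod a) := by
    rw [Int.cast_natCast, ZMod.isUnit_iff_coprime]
    exact (Nat.Coprime.mul_right hab hac).symm
  have hd : ∑ x ∈ range a, (x : ℚ) * ((b * c * x % a : ℕ) : ℚ) =
      (a : ℚ) ^ 2 * (dedekindSum ((b * c : ℕ) : ℤ) a + ((a : ℚ) - 1) / 4) := by
    have hz : (a : ℚ) ≠ 0 := Nat.cast_ne_zero.2 ha.ne'
    rw [dedekindSum_eq_residues hu, sum_zmod, sub_add_cancel, mul_div_cancel₀ _ (pow_ne_zero 2 hz)]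
    refine Finset.sum_congr rfl fun x hx => ?_
    rw [ZMod.val_natCast_of_lt (Finset.mem_range.1 hx), Int.cast_natCast, ← Nat.cast_mul (b * c) x,
      ZMod.val_natCast]
  have hx : ∀ x ∈ range a,
      ∑ w ∈ range b ×ˢ range c, (x : ℚ) * ((weight a b c (x, w) % (a * b * c) : ℕ) : ℚ) =
        ((b : ℚ) * c) * ((x : ℚ) * ((b * c * x % a : ℕ) : ℚ)) +
          ((a : ℚ) * ((b : ℚ) * c * ((b : ℚ) * c - 1) / 2)) * (x : ℚ) := fun x hx => by
    rw [← mul_sum, slice_sum hab hac hbc ha hb hc (Finset.mem_range.1 hx)]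
    ring
  rw [show box a b c = range a ×ˢ (range b ×ˢ range c) from rfl, sum_product,
    Finset.sum_congr rfl hx, sum_add_distrib, ← mul_sum, ← mul_sum, hd, sum_range_cast]
  ring

end FA.MordellTetrahedron

end
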