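import Fermat.Agent.MordellTetrahedron.Count

/-!
# The lattice points of the dilated tetrahedron

A natural point is uniquely a point of the box plus multiples of the edges, and a positive point a
multiple of the edges minus a point of the box; so both counts are cubic polynomials in the
dilation, determined by the three layers of the box.
-/

set_option autoImplicit false

noncomputable section

open Finset FA.DedekindSums

namespace FA.MordellTetrahedron

/-- The triples with sum below `s`. -/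
def tri (s : ℕ) : Finset (ℕ × ℕ × ℕ) :=
  (range s ×ˢ range s ×ˢ range s).filter fun k => k.1 + k.2.1 + k.2.2 < s

/-- The pairs with sum below `s`. -/
def duo (s : ℕ) : Finset (ℕ × ℕ) := (range s ×ˢ range s).filter fun k => k.1 + k.2 < s

theorem mem_tri {s : ℕ} {k : ℕ × ℕ × ℕ} : k ∈ tri s ↔ k.1 + k.2.1 + k.2.2 < s := by
  simp only [tri, Finset.mem_filter, Finset.mem_product, Finset.mem_range]
  omega

theorem mem_duo {s : ℕ} {k : ℕ × ℕ} : k ∈ duo s ↔ k.1 + k.2 < s := by
  simp only [duo, Finset.mem_filter, Finset.mem_product, Finset.mem_range]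
  omega

theorem card_duo (s : ℕ) : (duo s).card = (s + 1).choose 2 := by
  induction s with
  | zero => rfl
  | succ s ih =>
    have h : duo (s + 1) = (range (s + 1)).image (fun k => (0, k)) ∪
        (duo s).image (fun k => (k.1 + 1, k.2)) := by
      ext ⟨i, j⟩
      rcases i with - | i <;> simp [mem_duo] <;> omega
    rw [h, card_union_of_disjoint (by simp [Finset.disjoint_left]),
      card_image_of_injective _ (fun k k' e => (Prod.ext_iff.1 e).2),
      card_image_of_injective _ (fun k k' e => by simpa [Prod.ext_iff] using e), card_range, ih,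
      Nat.choose_succ_succ' (s + 1) 1, Nat.choose_one_right]

theorem card_tri (s : ℕ) : (tri s).card = (s + 2).choose 3 := by
  induction s with
  | zero => rfl
  | succ s ih =>
    have h : tri (s + 1) = (duo (s + 1)).image (fun k => (0, k)) ∪
        (tri s).image (fun k => (k.1 + 1, k.2)) := by
      ext ⟨i, j, l⟩
      rcases i with - | i <;> simp [mem_tri, mem_duo] <;> omega
    rw [h, card_union_of_disjoint (by simp [Finset.disjoint_left]; intros; omega),
      card_image_of_injective _ (fun k k' e => (Prod.ext_iff.1 e).2),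
      card_image_of_injective _ (fun k k' e => by simpa [Prod.ext_iff] using e), card_duo, ih,
      Nat.choose_succ_succ' (s + 2) 2]

theorem cast_choose_three (n : ℕ) :
    (n.choose 3 : ℚ) = (n : ℚ) * ((n : ℚ) - 1) * ((n : ℚ) - 2) / 6 := by
  induction n with
  | zero => simp
  | succ n ih =>
    rw [Nat.choose_succ_succ']
    push_cast [Nat.cast_choose_two]
    rw [ih]
    ring

theorem digits_unique {a i i' x x' : ℕ} (hx : x < a) (hx' : x' < a)
    (h : a * i + x = a * i' + x') : i = i' ∧ x = x' := by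
  have h1 := congrArg (· / a) h
  have h2 := congrArg (· % a) h
  simp only [Nat.mul_add_div (lt_of_le_of_lt (Nat.zero_le _) hx), Nat.div_eq_of_lt hx,
    Nat.div_eq_of_lt hx', Nat.mul_add_mod_self_left, Nat.mod_eq_of_lt hx, Nat.mod_eq_of_lt hx',
    add_zero] at h1 h2
  exact ⟨h1, h2⟩

variable {a b c : ℕ}

theorem residue_pos (hab : a.Coprime b) (hac : a.Coprime c) (hbc : b.Coprime c)
    {v : ℕ × ℕ × ℕ} (hv : v ∈ box a b c) (h0 : v ≠ (0, 0, 0)) :
    0 < weight a b c v % (a * b * c) := by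
  obtain ⟨hx, hy, hz⟩ := mem_box.1 hv
  refine Nat.pos_of_ne_zero fun h => h0 ?_
  refine injOn_residue hab hac hbc hv (mem_box.2 ⟨?_, ?_, ?_⟩) ?_
  · exact lt_of_le_of_lt (Nat.zero_le _) hx
  · exact lt_of_le_of_lt (Nat.zero_le _) hy
  · exact lt_of_le_of_lt (Nat.zero_le _) hz
  · simpa [weight] using h

theorem quotient_le (v : ℕ × ℕ × ℕ) (hv : v ∈ box a b c) :
    weight a b c v / (a * b * c) ≤ 2 :=
  Nat.le_of_lt_succ (Nat.div_lt_of_lt_mul (by linarith [weight_lt hv]))

theorem closed_iff (hab : a.Coprime b) (hac : a.Coprime c) (hbc : b.Coprime c)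
    {v : ℕ × ℕ × ℕ} (hv : v ∈ box a b c) (n t : ℕ) :
    a * b * c * n + weight a b c v ≤ t * (a * b * c) ↔
      n < if v = (0, 0, 0) then t + 1 else t - weight a b c v / (a * b * c) := by
  obtain ⟨hx, hy, hz⟩ := mem_box.1 hv
  have hM : 0 < a * b * c := by
    have ha : 0 < a := lt_of_le_of_lt (Nat.zero_le _) hx
    have hb : 0 < b := lt_of_le_of_lt (Nat.zero_le _) hy
    have hc : 0 < c := lt_of_le_of_lt (Nat.zero_le _) hz
    positivity
  split_ifs with h0
  · rw [h0, show weight a b c (0, 0, 0) = 0 by simp [weight], add_zero, mul_comm t]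
    exact (Nat.mul_le_mul_left_iff hM).trans Nat.lt_succ_iff.symm
  · have hr := residue_pos hab hac hbc hv h0
    have hlt := Nat.mod_lt (weight a b c v) hM
    have hd := Nat.div_add_mod (weight a b c v) (a * b * c)
    generalize weight a b c v / (a * b * c) = q at hd ⊢
    generalize weight a b c v % (a * b * c) = r at hd hr hlt ⊢
    generalize a * b * c = M at hM hd hlt ⊢
    rw [← hd, Nat.lt_sub_iff_add_lt]
    constructor
    · intro h
      by_contra hn
      have := Nat.mul_le_mul_left M (not_lt.1 hn)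
      nlinarith
    · intro h
      have := Nat.mul_le_mul_left M (Nat.succ_le_of_lt h)
      nlinarith

theorem open_iff (hab : a.Coprime b) (hac : a.Coprime c) (hbc : b.Coprime c)
    {v : ℕ × ℕ × ℕ} (hv : v ∈ box a b c) (n t : ℕ) :
    a * b * c * (n + 3) < t * (a * b * c) + weight a b c v ↔
      n < if v = (0, 0, 0) then t - 3 else t + weight a b c v / (a * b * c) - 2 := by
  obtain ⟨hx, hy, hz⟩ := mem_box.1 hv
  have hM : 0 < a * b * c := by
    have ha : 0 < a := lt_of_le_of_lt (Nat.zero_le _) hx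
    have hb : 0 < b := lt_of_le_of_lt (Nat.zero_le _) hy
    have hc : 0 < c := lt_of_le_of_lt (Nat.zero_le _) hz
    positivity
  split_ifs with h0
  · rw [h0, show weight a b c (0, 0, 0) = 0 by simp [weight], add_zero, mul_comm t,
      Nat.mul_lt_mul_left hM]
    omega
  · have hr := residue_pos hab hac hbc hv h0
    have hlt := Nat.mod_lt (weight a b c v) hM
    have hd := Nat.div_add_mod (weight a b c v) (a * b * c)
    generalize weight a b c v / (a * b * c) = q at hd ⊢
    generalize weight a b c v % (a * b * c) = r at hd hr hlt ⊢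
    generalize a * b * c = M at hM hd hlt ⊢
    rw [← hd, Nat.lt_sub_iff_add_lt]
    constructor
    · intro h
      by_contra hn
      have := Nat.mul_le_mul_left M (not_lt.1 hn)
      nlinarith
    · intro h
      have := Nat.mul_le_mul_left M (Nat.succ_le_of_lt h)
      nlinarith

theorem weight_translate (k v : ℕ × ℕ × ℕ) :
    weight a b c (a * k.1 + v.1, b * k.2.1 + v.2.1, c * k.2.2 + v.2.2) =
      a * b * c * (k.1 + k.2.1 + k.2.2) + weight a b c v := by
  simp only [weight]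
  ring

theorem weight_reflect {k v w : ℕ × ℕ × ℕ} (hx : w.1 + v.1 = a * (k.1 + 1))
    (hy : w.2.1 + v.2.1 = b * (k.2.1 + 1)) (hz : w.2.2 + v.2.2 = c * (k.2.2 + 1)) :
    weight a b c w + weight a b c v = a * b * c * (k.1 + k.2.1 + k.2.2 + 3) := by
  rw [show weight a b c w + weight a b c v =
    b * c * (w.1 + v.1) + a * c * (w.2.1 + v.2.1) + a * b * (w.2.2 + v.2.2) by
      simp only [weight]; ring, hx, hy, hz]
  ring

/-- The natural points of the tetrahedron, counted through the box. -/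
theorem ncard_closed (hab : a.Coprime b) (hac : a.Coprime c) (hbc : b.Coprime c) (ha : 0 < a)
    (hb : 0 < b) (hc : 0 < c) (t : ℕ) :
    {v : ℕ × ℕ × ℕ | weight a b c v ≤ t * (a * b * c)}.ncard =
      (∑ v ∈ box a b c, (t + 2 - weight a b c v / (a * b * c)).choose 3) + (t + 2).choose 2 := by
  obtain ⟨s, hs⟩ : ∃ s : ℕ × ℕ × ℕ → ℕ, s = fun v =>
      if v = (0, 0, 0) then t + 1 else t - weight a b c v / (a * b * c) := ⟨_, rfl⟩
  obtain ⟨Φ, hΦ⟩ : ∃ Φ : (Σ _ : ℕ × ℕ × ℕ, ℕ × ℕ × ℕ) → ℕ × ℕ × ℕ, Φ = fun p =>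
      (a * p.2.1 + p.1.1, b * p.2.2.1 + p.1.2.1, c * p.2.2.2 + p.1.2.2) := ⟨_, rfl⟩
  have hset : {v : ℕ × ℕ × ℕ | weight a b c v ≤ t * (a * b * c)} =
      ↑(((box a b c).sigma fun v => tri (s v)).image Φ) := by
    ext ⟨x, y, z⟩
    simp only [Set.mem_ofPred_eq, Finset.coe_image, Set.mem_image, Finset.mem_coe,
      Finset.mem_sigma, mem_tri]
    constructor
    · intro h
      have hv : (x % a, y % b, z % c) ∈ box a b c :=
        mem_box.2 ⟨Nat.mod_lt _ ha, Nat.mod_lt _ hb, Nat.mod_lt _ hc⟩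
      have e : Φ ⟨(x % a, y % b, z % c), (x / a, y / b, z / c)⟩ = (x, y, z) := by
        simp only [hΦ, Nat.div_add_mod]
      refine ⟨⟨(x % a, y % b, z % c), (x / a, y / b, z / c)⟩, ⟨hv, ?_⟩, e⟩
      rw [hs, ← closed_iff hab hac hbc hv]
      rw [← e, hΦ, weight_translate] at h
      exact h
    · rintro ⟨⟨v, k⟩, ⟨hv, hk⟩, e⟩
      rw [hs, ← closed_iff hab hac hbc hv] at hk
      rw [← e, hΦ, weight_translate]
      exact hk
  have hinj : Set.InjOn Φ ((box a b c).sigma fun v => tri (s v) : Finset _) := by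
    rintro ⟨⟨x, y, z⟩, ⟨i, j, l⟩⟩ hp ⟨⟨x', y', z'⟩, ⟨i', j', l'⟩⟩ hp' e
    simp only [Finset.mem_coe, Finset.mem_sigma, mem_box] at hp hp'
    simp only [hΦ, Prod.ext_iff] at e
    obtain ⟨rfl, rfl⟩ := digits_unique hp.1.1 hp'.1.1 e.1
    obtain ⟨rfl, rfl⟩ := digits_unique hp.1.2.1 hp'.1.2.1 e.2.1
    obtain ⟨rfl, rfl⟩ := digits_unique hp.1.2.2 hp'.1.2.2 e.2.2
    rfl
  rw [hset, Set.ncard_coe_finset, card_image_of_injOn hinj, card_sigma]
  have h0 : ((0, 0, 0) : ℕ × ℕ × ℕ) ∈ box a b c := mem_box.2 ⟨ha, hb, hc⟩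
  rw [Finset.sum_congr rfl fun v hv => show (tri (s v)).card =
    (t + 2 - weight a b c v / (a * b * c)).choose 3 +
      if v = (0, 0, 0) then (t + 2).choose 2 else 0 from ?_, sum_add_distrib, sum_ite_eq',
    if_pos h0]
  have hq := quotient_le v hv
  rw [card_tri, hs]
  by_cases hv0 : v = (0, 0, 0)
  · simp [hv0, weight, Nat.choose_succ_succ' (t + 2) 2, add_comm]
  · simp only [if_neg hv0, add_zero]
    rcases le_or_gt (weight a b c v / (a * b * c)) t with h | h
    · rw [show t - weight a b c v / (a * b * c) + 2 = t + 2 - weight a b c v / (a * b * c) by omega]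
    · rw [Nat.choose_eq_zero_of_lt (by omega), Nat.choose_eq_zero_of_lt (by omega)]

/-- The positive points inside the tetrahedron, counted through the box. -/
theorem ncard_open (hab : a.Coprime b) (hac : a.Coprime c) (hbc : b.Coprime c) (ha : 0 < a)
    (hb : 0 < b) (hc : 0 < c) {t : ℕ} (ht : 1 ≤ t) :
    {v : ℕ × ℕ × ℕ | 0 < v.1 ∧ 0 < v.2.1 ∧ 0 < v.2.2 ∧
      weight a b c v < t * (a * b * c)}.ncard + (t - 1).choose 2 =
      ∑ v ∈ box a b c, (t + weight a b c v / (a * b * c)).choose 3 := by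
  obtain ⟨s, hs⟩ : ∃ s : ℕ × ℕ × ℕ → ℕ, s = fun v =>
      if v = (0, 0, 0) then t - 3 else t + weight a b c v / (a * b * c) - 2 := ⟨_, rfl⟩
  obtain ⟨Φ, hΦ⟩ : ∃ Φ : (Σ _ : ℕ × ℕ × ℕ, ℕ × ℕ × ℕ) → ℕ × ℕ × ℕ, Φ = fun p =>
      (a * (p.2.1 + 1) - p.1.1, b * (p.2.2.1 + 1) - p.1.2.1, c * (p.2.2.2 + 1) - p.1.2.2) :=
    ⟨_, rfl⟩
  have hle : ∀ {m x : ℕ}, x < m → ∀ i, x < m * (i + 1) := fun {m x} h i =>
    h.trans_le (Nat.le_mul_of_pos_right m i.succ_pos)
  have hset : {v : ℕ × ℕ × ℕ | 0 < v.1 ∧ 0 < v.2.1 ∧ 0 < v.2.2 ∧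
      weight a b c v < t * (a * b * c)} =
      ↑(((box a b c).sigma fun v => tri (s v)).image Φ) := by
    ext ⟨x, y, z⟩
    simp only [Set.mem_ofPred_eq, Finset.coe_image, Set.mem_image, Finset.mem_coe,
      Finset.mem_sigma, mem_tri]
    constructor
    · rintro ⟨hx, hy, hz, h⟩
      have key : ∀ {m u : ℕ}, 0 < m → 0 < u →
          u + (m - 1 - (u - 1) % m) = m * ((u - 1) / m + 1) := fun {m u} hm hu => by
        have h1 := Nat.div_add_mod (u - 1) m
        have h2 := Nat.mod_lt (u - 1) hm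
        rw [Nat.mul_add, mul_one]
        omega
      obtain ⟨v, hvd⟩ : ∃ v : ℕ × ℕ × ℕ,
          v = (a - 1 - (x - 1) % a, b - 1 - (y - 1) % b, c - 1 - (z - 1) % c) := ⟨_, rfl⟩
      have hv : v ∈ box a b c := by
        simp only [hvd, mem_box]
        exact ⟨by omega, by omega, by omega⟩
      obtain ⟨k, hk⟩ : ∃ k : ℕ × ℕ × ℕ, k = ((x - 1) / a, (y - 1) / b, (z - 1) / c) := ⟨_, rfl⟩
      have hw := weight_reflect (a := a) (b := b) (c := c) (k := k) (v := v) (w := (x, y, z))
        (by rw [hk, hvd]; exact key ha hx) (by rw [hk, hvd]; exact key hb hy)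
        (by rw [hk, hvd]; exact key hc hz)
      refine ⟨⟨v, k⟩, ⟨hv, ?_⟩, ?_⟩
      · rw [hs, ← open_iff hab hac hbc hv, ← hw]
        omega
      · simp only [hΦ, hk, hvd]
        rw [← key ha hx, ← key hb hy, ← key hc hz]
        simp only [Nat.add_sub_cancel]
    · rintro ⟨⟨v, k⟩, ⟨hv, hk⟩, e⟩
      rw [hs, ← open_iff hab hac hbc hv] at hk
      obtain ⟨hx, hy, hz⟩ := mem_box.1 hv
      have h1 := hle hx k.1
      have h2 := hle hy k.2.1
      have h3 := hle hz k.2.2
      simp only [hΦ, Prod.ext_iff] at e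
      obtain ⟨rfl, rfl, rfl⟩ := e
      refine ⟨Nat.sub_pos_of_lt h1, Nat.sub_pos_of_lt h2, Nat.sub_pos_of_lt h3, ?_⟩
      have hw := weight_reflect (a := a) (b := b) (c := c) (k := k) (v := v)
        (w := (a * (k.1 + 1) - v.1, b * (k.2.1 + 1) - v.2.1, c * (k.2.2 + 1) - v.2.2))
        (Nat.sub_add_cancel h1.le) (Nat.sub_add_cancel h2.le) (Nat.sub_add_cancel h3.le)
      simp only at hk
      linarith
  have hinj : Set.InjOn Φ ((box a b c).sigma fun v => tri (s v) : Finset _) := by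
    rintro ⟨⟨x, y, z⟩, ⟨i, j, l⟩⟩ hp ⟨⟨x', y', z'⟩, ⟨i', j', l'⟩⟩ hp' e
    simp only [Finset.mem_coe, Finset.mem_sigma, mem_box] at hp hp'
    simp only [hΦ, Prod.ext_iff] at e
    obtain ⟨e1, e2, e3⟩ := e
    have := hle hp.1.1 i
    have := hle hp'.1.1 i'
    have := hle hp.1.2.1 j
    have := hle hp'.1.2.1 j'
    have := hle hp.1.2.2 l
    have := hle hp'.1.2.2 l'
    obtain ⟨f1, rfl⟩ := digits_unique (i := i + 1) (i' := i' + 1) hp'.1.1 hp.1.1 (by omega)
    obtain ⟨f2, rfl⟩ := digits_unique (i := j + 1) (i' := j' + 1) hp'.1.2.1 hp.1.2.1 (by omega)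
    obtain ⟨f3, rfl⟩ := digits_unique (i := l + 1) (i' := l' + 1) hp'.1.2.2 hp.1.2.2 (by omega)
    obtain rfl : i = i' := by omega
    obtain rfl : j = j' := by omega
    obtain rfl : l = l' := by omega
    rfl
  rw [hset, Set.ncard_coe_finset, card_image_of_injOn hinj, card_sigma]
  have h0 : ((0, 0, 0) : ℕ × ℕ × ℕ) ∈ box a b c := mem_box.2 ⟨ha, hb, hc⟩
  rw [Finset.sum_congr rfl fun v hv => show (t + weight a b c v / (a * b * c)).choose 3 =
    (tri (s v)).card + if v = (0, 0, 0) then (t - 1).choose 2 else 0 from ?_, sum_add_distrib,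
    sum_ite_eq', if_pos h0]
  rw [card_tri, hs]
  by_cases hv0 : v = (0, 0, 0)
  · obtain ⟨t, rfl⟩ : ∃ t', t = t' + 1 := ⟨t - 1, by omega⟩
    simp only [hv0, weight, if_true, mul_zero, add_zero, Nat.zero_div, Nat.add_sub_cancel,
      Nat.choose_succ_succ' t 2]
    rcases le_or_gt 2 t with h | h
    · rw [show t + 1 - 3 + 2 = t by omega, add_comm]
    · rw [Nat.choose_eq_zero_of_lt (show t < 3 by omega),
        Nat.choose_eq_zero_of_lt (show t + 1 - 3 + 2 < 3 by omega), add_comm]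
  · simp only [if_neg hv0, add_zero]
    rcases le_or_gt 2 (t + weight a b c v / (a * b * c)) with h | h
    · rw [Nat.sub_add_cancel h]
    · rw [Nat.choose_eq_zero_of_lt (by omega), Nat.choose_eq_zero_of_lt (by omega)]

theorem sumS_eq : sumS a b c =
    dedekindSum ((b : ℤ) * c) a + dedekindSum ((c : ℤ) * a) b + dedekindSum ((a : ℤ) * b) c := by
  simp [sumS]

/-- **The lattice-point polynomial of the tetrahedron.** -/
theorem pommersheim_closed (hab : a.Coprime b) (hac : a.Coprime c) (hbc : b.Coprime c)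
    (ha : 0 < a) (hb : 0 < b) (hc : 0 < c) (t : ℕ) :
    ({v : ℕ × ℕ × ℕ | weight a b c v ≤ t * (a * b * c)}.ncard : ℚ) =
      (a : ℚ) * b * c / 6 * (t : ℚ) ^ 3 +
        ((a : ℚ) * b + b * c + c * a + 1) / 4 * (t : ℚ) ^ 2 +
        (((a : ℚ) + b + c) / 4 + 3 / 4 + ((a : ℚ) * b / c + (b : ℚ) * c / a + (c : ℚ) * a / b +
          1 / ((a : ℚ) * b * c)) / 12 - sumS a b c) * t + 1 := by
  rw [ncard_closed hab hac hbc ha hb hc]
  push_cast
  rw [sum_quotient_comp fun q => (((t + 2 - q).choose 3 : ℕ) : ℚ)]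
  obtain ⟨h1, h2⟩ := layer_moments hab hac hbc ha hb hc
  have hs := layer_sum (a := a) (b := b) (c := c)
  simp only [sum_range_succ, sum_range_zero, zero_add, cast_choose_three, Nat.cast_choose_two]
  rw [Nat.cast_sub (by omega), Nat.cast_sub (by omega), Nat.cast_sub (by omega)]
  push_cast
  linear_combination ((t : ℚ) ^ 3 / 6 + (t : ℚ) ^ 2 / 2 - 4 * t / 6) * hs +
    (-(t : ℚ) ^ 2 / 2 + (t : ℚ) / 2) * h1 + (t : ℚ) / 2 * h2

/-- **The lattice-point polynomial of the interior.** -/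
theorem pommersheim_open (hab : a.Coprime b) (hac : a.Coprime c) (hbc : b.Coprime c)
    (ha : 0 < a) (hb : 0 < b) (hc : 0 < c) {t : ℕ} (ht : 1 ≤ t) :
    ({v : ℕ × ℕ × ℕ | 0 < v.1 ∧ 0 < v.2.1 ∧ 0 < v.2.2 ∧
      weight a b c v < t * (a * b * c)}.ncard : ℚ) =
      (a : ℚ) * b * c / 6 * (t : ℚ) ^ 3 -
        ((a : ℚ) * b + b * c + c * a + 1) / 4 * (t : ℚ) ^ 2 +
        (((a : ℚ) + b + c) / 4 + 3 / 4 + ((a : ℚ) * b / c + (b : ℚ) * c / a + (c : ℚ) * a / b +
          1 / ((a : ℚ) * b * c)) / 12 - sumS a b c) * t - 1 := by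
  have h := congrArg (fun n : ℕ => (n : ℚ)) (ncard_open hab hac hbc ha hb hc ht)
  push_cast at h
  rw [sum_quotient_comp fun q => (((t + q).choose 3 : ℕ) : ℚ)] at h
  obtain ⟨h1, h2⟩ := layer_moments hab hac hbc ha hb hc
  have hs := layer_sum (a := a) (b := b) (c := c)
  simp only [sum_range_succ, sum_range_zero, zero_add, add_zero, cast_choose_three,
    Nat.cast_choose_two, Nat.cast_sub ht] at h
  push_cast at h
  linear_combination h + ((t : ℚ) ^ 3 / 6 - (t : ℚ) ^ 2 / 2 - 4 * t / 6) * hs +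
    ((t : ℚ) ^ 2 / 2 + (t : ℚ) / 2) * h1 + (t : ℚ) / 2 * h2

end FA.MordellTetrahedron

end
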